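import Fermat.Agent.PolynomialPell.Ring

/-!
# Abel's theorem: the polynomial Pell equation and torsion

`P² - D Q² = 1` has a solution with `Q ≠ 0` iff the marked point has finite order: torsion gives a
function whose only zero is at `S`, hence a unit of `K[u, v] / (v² - D)`; conversely such a unit
gives a principal ideal `I_S ^ i I_(-S) ^ j` with `i ≠ j`.
-/

set_option autoImplicit false

noncomputable section

open Polynomial WeierstrassCurve Affine

namespace FA.PolynomialPell

/-- An ideal dividing a product of two primes with principal product is such a product. -/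
theorem exists_pow_mul_pow {R : Type*} [CommRing R] [IsDomain R] {M N : Ideal R} (hM : M.IsPrime)
    (hN : N.IsPrime) {c : R} (hc : c ≠ 0) (hMN : M * N = Ideal.span {c}) :
    ∀ (n a b : ℕ), a + b = n → ∀ J J' : Ideal R, J * J' = M ^ a * N ^ b →
      ∃ i j, J = M ^ i * N ^ j := by
  -- division of an ideal in one of the primes
  have divide : ∀ (M N : Ideal R), M * N = Ideal.span {c} → ∀ J : Ideal R, J ≤ M →
      ∃ J₁, J = M * J₁ := by
    intro M N hMN J hJ
    have hle : J * N ≤ Ideal.span {c} := hMN ▸ Ideal.mul_mono_left hJ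
    let J₁ : Ideal R := Submodule.comap (LinearMap.mul R R c) (J * N)
    have h1 : Ideal.span {c} * J₁ = J * N := by
      refine le_antisymm (Ideal.span_singleton_mul_le_iff.2 fun z hz => hz) fun z hz => ?_
      obtain ⟨w, rfl⟩ := Ideal.mem_span_singleton'.1 (hle hz)
      exact Ideal.mem_span_singleton_mul.2
        ⟨w, show c * w ∈ J * N from mul_comm w c ▸ hz, mul_comm _ _⟩
    refine ⟨J₁, (Ideal.span_singleton_mul_right_inj hc).1 ?_⟩
    rw [mul_left_comm, h1, ← hMN, mul_assoc, mul_comm N J]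
  have cancel : ∀ (M N : Ideal R), M * N = Ideal.span {c} → ∀ I I' : Ideal R,
      M * I = M * I' → I = I' := fun M N hMN I I' h => by
    refine (Ideal.span_singleton_mul_right_inj hc).1 ?_
    rw [← hMN, mul_comm M N, mul_assoc, mul_assoc, h]
  have hNM : N * M = Ideal.span {c} := by rw [mul_comm, hMN]
  intro n
  induction n with
  | zero =>
    intro a b hab J J' h
    obtain ⟨rfl, rfl⟩ : a = 0 ∧ b = 0 := by omega
    refine ⟨0, 0, ?_⟩
    rw [pow_zero, pow_zero, mul_one, Ideal.one_eq_top] at h ⊢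
    exact eq_top_iff.2 (h ▸ Ideal.mul_le_left)
  | succ n ih =>
    intro a b hab J J' h
    rcases Nat.eq_zero_or_pos a with rfl | ha
    · -- only powers of `N` are left
      obtain ⟨b, rfl⟩ : ∃ b', b = b' + 1 := ⟨b - 1, by omega⟩
      have hle : J * J' ≤ N := by
        rw [h, pow_succ, ← mul_assoc]; exact Ideal.mul_le_right
      rcases hN.mul_le.1 hle with hJ | hJ
      · obtain ⟨J₁, rfl⟩ := divide N M hNM J hJ
        obtain ⟨i, j, rfl⟩ := ih 0 b (by omega) J₁ J' (cancel N M hNM _ _ (by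
          rw [← mul_assoc, h, pow_succ]; ring))
        exact ⟨i, j + 1, by ring⟩
      · obtain ⟨J₁, rfl⟩ := divide N M hNM J' hJ
        exact ih 0 b (by omega) J J₁ (cancel N M hNM _ _ (by
          rw [mul_left_comm, h, pow_succ]; ring))
    · obtain ⟨a, rfl⟩ : ∃ a', a = a' + 1 := ⟨a - 1, by omega⟩
      have hle : J * J' ≤ M := by
        rw [h, pow_succ', mul_assoc]; exact Ideal.mul_le_left
      rcases hM.mul_le.1 hle with hJ | hJ
      · obtain ⟨J₁, rfl⟩ := divide M N hMN J hJ
        obtain ⟨i, j, rfl⟩ := ih a b (by omega) J₁ J' (cancel M N hMN _ _ (by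
          rw [← mul_assoc, h, pow_succ]; ring))
        exact ⟨i + 1, j, by ring⟩
      · obtain ⟨J₁, rfl⟩ := divide M N hMN J' hJ
        exact ih a b (by omega) J J₁ (cancel M N hMN _ _ (by
          rw [mul_left_comm, h, pow_succ]; ring))

variable {K : Type*} [Field K] {a b s t : K}

/-- The ideal of the point `(s, t)`. -/
abbrev ptIdeal (a b s t : K) : Ideal (curve a b).CoordinateRing :=
  CoordinateRing.XYIdeal (curve a b) s (C t)

theorem ptIdeal_prime (h : (curve a b).Nonsingular s t) : (ptIdeal a b s t).IsPrime :=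
  (Ideal.Quotient.maximal_of_isField _ <| MulEquiv.isField (Field.toIsField K)
    (CoordinateRing.quotientXYIdealEquiv h.1).toMulEquiv).isPrime

theorem ptIdeal_mul (h : (curve a b).Nonsingular s t) :
    ptIdeal a b s t * ptIdeal a b s (-t) = Ideal.span {xsub a b s} := by
  have := CoordinateRing.XYIdeal_neg_mul h
  rw [show (curve a b).negY s t = -t by simp [Affine.negY]] at this
  rw [mul_comm]
  exact this

theorem sq_of_nonsingular (h : (curve a b).Nonsingular s t) : t ^ 2 = s ^ 3 + a * s + b := by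
  simpa using (equation_iff (W := curve a b) s t).1 h.1

/-- A nonsingular point with `t = 0` is a simple root. -/
theorem deriv_ne_zero (h : (curve a b).Nonsingular s t) (ht0 : t = 0) : 3 * s ^ 2 + a ≠ 0 := by
  intro e
  obtain ⟨-, h'⟩ := (nonsingular_iff (W := curve a b) s t).1 h
  subst ht0
  rcases h' with h' | h'
  · exact h' (by simpa using e.symm)
  · exact h' (by simp)

/-- The class of a product of the two ideals. -/
theorem toClass_pow_eq (h : (curve a b).Nonsingular s t) {i j : ℕ}
    {r : (curve a b).CoordinateRing} (hr : r ≠ 0)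
    (e : ptIdeal a b s t ^ i * ptIdeal a b s (-t) ^ j = Ideal.span {r}) [DecidableEq K] :
    ((i : ℤ) - j) • Point.some s t h = 0 := by
  have h' : (curve a b).Nonsingular s (-t) := by
    have := (nonsingular_neg (W' := curve a b) s t).2 h
    rwa [show (curve a b).negY s t = -t by simp [Affine.negY]] at this
  have hm : ClassGroup.mk (curve a b).FunctionField
      (CoordinateRing.XYIdeal' h ^ i * CoordinateRing.XYIdeal' h' ^ j) = 1 := by
    refine (ClassGroup.mk_eq_one_of_coe_ideal
      (I' := ptIdeal a b s t ^ i * ptIdeal a b s (-t) ^ j) ?_).2 ⟨r, hr, e⟩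
    rw [Units.val_mul, Units.val_pow_eq_pow_val, Units.val_pow_eq_pow_val,
      FractionalIdeal.coeIdeal_mul, FractionalIdeal.coeIdeal_pow, FractionalIdeal.coeIdeal_pow]
    rfl
  have hneg : Point.some s (-t) h' = -Point.some s t h := by
    rw [Point.neg_some, Point.some.injEq]
    exact ⟨rfl, by simp [Affine.negY]⟩
  have key : Point.toClass (i • Point.some s t h + j • Point.some s (-t) h') = 0 := by
    rw [map_add, map_nsmul, map_nsmul, Point.toClass_some, Point.toClass_some]
    show ClassGroup.mk _ (CoordinateRing.XYIdeal' h) ^ i *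
      ClassGroup.mk _ (CoordinateRing.XYIdeal' h') ^ j = 1
    rw [← map_pow, ← map_pow, ← map_mul]
    exact hm
  rw [Point.toClass_eq_zero, hneg, neg_nsmul, ← sub_eq_add_neg] at key
  rwa [sub_zsmul, natCast_zsmul, natCast_zsmul, ← sub_eq_add_neg]

/-- The units of the coordinate ring are constants. -/
theorem unit_const {e : (curve a b).CoordinateRing} (he : IsUnit e) :
    ∃ c : K, c ≠ 0 ∧ e = C c • (1 : (curve a b).CoordinateRing) := by
  obtain ⟨p, q, rfl⟩ := CoordinateRing.exists_smul_basis_eq e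
  have hu := degree_eq_zero_of_isUnit (he.map (Algebra.norm K[X]))
  rw [CoordinateRing.degree_norm_smul_basis] at hu
  have hq : q = 0 := by
    by_contra hq
    rw [degree_eq_natDegree hq] at hu
    have h3 : (2 • (q.natDegree : WithBot ℕ) + 3) ≤ 0 := hu ▸ le_max_right _ _
    rw [two_nsmul] at h3
    norm_cast at h3
  subst hq
  rcases eq_or_ne p 0 with rfl | hp
  · simp at he
  have hp0 : p.natDegree = 0 := by
    rw [degree_zero, degree_eq_natDegree hp] at hu
    have h3 : (2 • (p.natDegree : WithBot ℕ)) ≤ 0 := hu ▸ le_max_left _ _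
    rw [two_nsmul] at h3
    norm_cast at h3
    omega
  rw [eq_C_of_natDegree_eq_zero hp0] at hp ⊢
  exact ⟨p.coeff 0, fun e => hp (by rw [e, map_zero]), by simp⟩

section Directions

variable [DecidableEq K] (h2 : (2 : K) ≠ 0) (h : (curve a b).Nonsingular s t)

include h2 h in
/-- A polynomial Pell solution makes the point torsion. -/
theorem torsion_of_pell {P Q : K[X]} (hQ : Q ≠ 0) (hPQ : P ^ 2 - quartic a s t * Q ^ 2 = 1) :
    IsOfFinAddOrder (Point.some s t h) := by
  rcases eq_or_ne t 0 with ht0 | ht0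
  · rw [isOfFinAddOrder_iff_nsmul_eq_zero]
    refine ⟨2, two_pos, ?_⟩
    rw [two_nsmul]
    exact Point.add_of_Y_eq rfl (by simp [Affine.negY, ht0])
  have ht := sq_of_nonsingular h
  set D := quartic a s t
  set w := ww a s t
  set ψ := toCover h2 ht with hψ
  set g := pol D P + pol D Q * vv D
  set g' := pol D P - pol D Q * vv D
  have hgg : g * g' = 1 := by
    rw [show g * g' = pol D P ^ 2 - pol D Q ^ 2 * vv D ^ 2 by ring, vv_sq, ← map_pow, ← map_pow,
      ← map_mul, ← map_sub, mul_comm, hPQ, map_one]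
  obtain ⟨k₁, r₁, hr₁⟩ := exists_toCover_eq h2 ht g
  obtain ⟨k₂, r₂, hr₂⟩ := exists_toCover_eq h2 ht g'
  set k := k₁ + k₂
  set r := r₁ * xsub a b s ^ k₂
  have hr : ψ r = w ^ k * g := by
    rw [map_mul, map_pow, toCover_xsub, hψ, hr₁, pow_add]; ring
  have hrr : r * (r₂ * xsub a b s ^ k₁) = xsub a b s ^ (2 * k) := by
    refine toCover_injective h2 ht ?_
    rw [← hψ, map_mul, hr, map_pow, map_mul, map_pow, toCover_xsub, hψ, hr₂]
    calc w ^ k * g * (w ^ k₂ * g' * w ^ k₁) = w ^ (2 * k) * (g * g') := by ring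
      _ = w ^ (2 * k) := by rw [hgg, mul_one]
  have hrne : r ≠ 0 := fun e => pow_ne_zero (2 * k) (CoordinateRing.XClass_ne_zero s)
    (show xsub a b s ^ (2 * k) = 0 by rw [← hrr, e, zero_mul])
  have h' : (curve a b).Nonsingular s (-t) := by
    have := (nonsingular_neg (W' := curve a b) s t).2 h
    rwa [show (curve a b).negY s t = -t by simp [Affine.negY]] at this
  obtain ⟨i, j, hij⟩ := exists_pow_mul_pow (ptIdeal_prime h) (ptIdeal_prime h')
    (CoordinateRing.XClass_ne_zero s) (ptIdeal_mul h) _ (2 * k) (2 * k) rfl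
    (Ideal.span {r}) (Ideal.span {r₂ * xsub a b s ^ k₁})
    (by rw [Ideal.span_singleton_mul_span_singleton, hrr, ← mul_pow, ptIdeal_mul h,
      Ideal.span_singleton_pow])
  have hcl := toClass_pow_eq h hrne hij.symm
  rw [isOfFinAddOrder_iff_zsmul_eq_zero]
  refine ⟨(i : ℤ) - j, fun e => ?_, hcl⟩
  obtain rfl : i = j := by omega
  -- otherwise the solution is trivial
  rw [← mul_pow, ptIdeal_mul h, Ideal.span_singleton_pow,
    Ideal.span_singleton_eq_span_singleton] at hij
  obtain ⟨ε, hε⟩ := hij.symm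
  obtain ⟨c, hc, hεc⟩ := unit_const ε.isUnit
  have hwg : w ^ k * g = pol D (C c) * w ^ i := by
    rw [← hr, ← hε, hεc, map_mul, map_pow, toCover_xsub, mul_comm]
    congr 1
    simp [hψ, CoordinateRing.smul, toCover, D]
  have hN : pol D (wNorm a s t ^ k) = pol D (C c ^ 2 * wNorm a s t ^ i) := by
    have h1 := congrArg (conj D) hwg
    simp only [g, map_mul, map_pow, map_add, conj_pol, conj_vv] at h1
    rw [map_mul, map_pow, map_pow, map_pow, ← ww_mul_conj h2]
    calc (w * conj D w) ^ k = (w ^ k * g) * (conj D w ^ k * (pol D P + pol D Q * -vv D)) := by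
          rw [mul_pow]
          linear_combination (-(w ^ k * conj D w ^ k)) * hgg
      _ = pol D (C c) ^ 2 * (w * conj D w) ^ i := by rw [hwg, h1]; ring
  have hd : (wNorm a s t).natDegree = 1 := natDegree_linear (mul_ne_zero h2 ht0)
  have hk : k = i := by
    have := congrArg natDegree (pol_injective D hN)
    rw [← C_pow, natDegree_C_mul (pow_ne_zero 2 hc), natDegree_pow, natDegree_pow, hd] at this
    omega
  have hwne : wNorm a s t ≠ 0 := ne_zero_of_natDegree_gt (n := 0) (by omega)
  have hg : g - pol D (C c) = 0 := by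
    refine eq_zero_of_pol_mul D (pow_ne_zero k hwne) ?_
    rw [map_pow, ← ww_mul_conj h2, mul_pow, mul_right_comm, mul_sub, hwg, hk]
    ring
  exact hQ (rep_eq_zero D (p := P - C c) (by rw [map_sub, ← hg]; ring)).2

include h2 h in
/-- A torsion point gives a polynomial Pell solution. -/
theorem pell_of_torsion (ho : IsOfFinAddOrder (Point.some s t h)) :
    ∃ P Q : K[X], Q ≠ 0 ∧ P ^ 2 - quartic a s t * Q ^ 2 = 1 := by
  have ht := sq_of_nonsingular h
  obtain ⟨n, hn, hnS⟩ := isOfFinAddOrder_iff_nsmul_eq_zero.1 ho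
  set D := quartic a s t with hD
  set ψ := toCover h2 ht with hψ
  set I := ptIdeal a b s t
  obtain ⟨f, hf0, hIf⟩ : ∃ f, f ≠ 0 ∧ I ^ n = Ideal.span {f} := by
    refine (ClassGroup.mk_eq_one_of_coe_ideal
      (I := CoordinateRing.XYIdeal' h ^ n) (I' := I ^ n) ?_).1 ?_
    · rw [Units.val_pow_eq_pow_val, FractionalIdeal.coeIdeal_pow]; rfl
    · have := congrArg Point.toClass hnS
      rw [map_nsmul, Point.toClass_some, map_zero] at this
      rw [map_pow]
      exact this
  obtain ⟨p, q, hpq⟩ := exists_rep D (ψ f)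
  set N := p ^ 2 - D * q ^ 2
  let L := AlgebraicClosure K
  let j : K →+* L := algebraMap K L
  have j2 : (2 : L) ≠ 0 := by rw [← map_ofNat j 2]; exact (map_ne_zero j).2 h2
  have noroot : ∀ u₀ : L, N.eval₂ j u₀ ≠ 0 := by
    intro u₀ hu₀
    obtain ⟨v₁, hv₁⟩ := IsAlgClosed.exists_pow_nat_eq (D.eval₂ j u₀) two_pos
    obtain ⟨v₀, hv, hzero⟩ : ∃ v₀, v₀ ^ 2 = D.eval₂ j u₀ ∧
        p.eval₂ j u₀ + q.eval₂ j u₀ * v₀ = 0 := by
      simp only [N, eval₂_sub, eval₂_mul, eval₂_pow, ← hv₁] at hu₀
      rcases mul_eq_zero.1 (show (p.eval₂ j u₀ + q.eval₂ j u₀ * v₁) *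
          (p.eval₂ j u₀ + q.eval₂ j u₀ * -v₁) = 0 by linear_combination hu₀) with e | e
      · exact ⟨v₁, hv₁, e⟩
      · exact ⟨-v₁, by rw [neg_sq, hv₁], e⟩
    set φ := (evalAt D j u₀ v₀ hv).comp ψ
    have hker : I ≤ RingHom.ker φ := by
      refine ((RingHom.ker_isPrime φ).pow_le_iff hn.ne').1 ?_
      rw [hIf, Ideal.span_singleton_le_iff_mem, RingHom.mem_ker, RingHom.comp_apply, hpq]
      rw [map_add, map_mul, evalAt_pol, evalAt_pol, evalAt_vv]
      exact hzero
    have e1 : φ (xsub a b s) = 0 := hker (Ideal.subset_span (by simp))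
    have e2 : φ (CoordinateRing.YClass (curve a b) (C t)) = 0 :=
      hker (Ideal.subset_span (by simp))
    replace e1 : evalAt (quartic a s t) j u₀ v₀ hv (ww a s t) = 0 := by
      rw [← toCover_xsub h2 ht]; exact e1
    replace e2 : evalAt (quartic a s t) j u₀ v₀ hv (yy a s t - cst (quartic a s t) t) = 0 := by
      rw [← toCover_ysub h2 ht]; exact e2
    simp only [yy, ww, xx, map_sub, map_mul, map_add, map_pow, RingHom.comp_apply, evalAt_pol,
      evalAt_vv, eval₂_X, eval₂_C, map_div₀, map_one, map_ofNat] at e1 e2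
    have htz : j t = 0 := by
      refine (mul_eq_zero.1 (show (2 : L) * j t = 0 from ?_)).resolve_left j2
      linear_combination u₀ * e1 - e2
    have hv3 : v₀ = 3 * j s - u₀ ^ 2 := by
      linear_combination (2 : L) * e1 - (u₀ ^ 2 + v₀ - j s) * mul_one_div_cancel j2
    refine deriv_ne_zero h ((map_eq_zero j).1 htz) ((map_eq_zero j).1 ?_)
    simp only [hD, quartic, eval₂_sub, eval₂_mul, eval₂_C, eval₂_X_pow, eval₂_X] at hv
    simp only [map_mul, map_add, map_pow, map_ofNat] at hv ⊢
    rw [hv3, htz] at hv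
    refine (mul_eq_zero.1 (show (2 : L) ^ 2 * (3 * j s ^ 2 + j a) = 0 from ?_)).resolve_left
      (pow_ne_zero 2 j2)
    linear_combination hv
  have hN0 : N ≠ 0 := fun e => noroot 0 (by rw [e, eval₂_zero])
  have hNdeg : N.natDegree = 0 := by
    by_contra hne
    have : (N.map j).degree ≠ 0 := fun e => hne (by
      rw [← natDegree_map (f := j)]
      exact natDegree_eq_zero_iff_degree_le_zero.2 e.le)
    obtain ⟨u₀, hu₀⟩ := IsAlgClosed.exists_root _ this
    exact noroot u₀ (by rw [← eval_map]; exact hu₀)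
  obtain ⟨c, hc, hNc⟩ : ∃ c, c ≠ 0 ∧ N = C c := ⟨N.coeff 0, fun e => hN0 (by
    rw [eq_C_of_natDegree_eq_zero hNdeg, e, map_zero]), eq_C_of_natDegree_eq_zero hNdeg⟩
  have hDdeg : D.natDegree = 4 := (quartic_monic a s t).2
  have hq : q ≠ 0 := by
    intro hq
    subst hq
    have hp : IsUnit p := by
      refine isUnit_of_mul_isUnit_left (y := p) ?_
      rw [show p * p = N by simp [N, sq], hNc]
      exact isUnit_C.2 hc.isUnit
    obtain ⟨d, hd, rfl⟩ := Polynomial.isUnit_iff.1 hp
    have : f = CoordinateRing.mk (curve a b) (C (C d)) := toCover_injective h2 ht (by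
      rw [← hψ, hpq]; simp [hψ, toCover, D])
    have hunit : IsUnit f := this ▸ (hd.map C).map ((CoordinateRing.mk (curve a b)).comp C)
    refine (ptIdeal_prime h).ne_top (eq_top_iff.2 ?_)
    calc (⊤ : Ideal _) = I ^ n := by rw [hIf, Ideal.span_singleton_eq_top.2 hunit]
      _ ≤ I := Ideal.pow_le_self hn.ne'
  have hp : p ≠ 0 := by
    intro hp
    have := congrArg natDegree hNc
    rw [natDegree_C, show N = -(D * q ^ 2) by simp [N, hp], natDegree_neg,
      natDegree_mul (quartic_monic a s t).1.ne_zero (pow_ne_zero 2 hq), hDdeg] at this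
    omega
  refine ⟨C c⁻¹ * (p ^ 2 + D * q ^ 2), C c⁻¹ * (2 * p * q), ?_, ?_⟩
  · have : (2 : K[X]) ≠ 0 := by rw [← map_ofNat C 2]; exact C_ne_zero.2 h2
    exact mul_ne_zero (C_ne_zero.2 (inv_ne_zero hc)) (mul_ne_zero (mul_ne_zero this hp) hq)
  · rw [show (C c⁻¹ * (p ^ 2 + D * q ^ 2)) ^ 2 - D * (C c⁻¹ * (2 * p * q)) ^ 2 =
      (C c⁻¹ * N) ^ 2 by ring, hNc, ← map_mul, inv_mul_cancel₀ hc, map_one, one_pow]

include h2 in
/-- **Abel's theorem**. -/
theorem pell_iff_torsion :
    (∃ P Q : K[X], Q ≠ 0 ∧ P ^ 2 - quartic a s t * Q ^ 2 = 1) ↔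
      IsOfFinAddOrder (Point.some s t h) :=
  ⟨fun ⟨_, _, hQ, hPQ⟩ => torsion_of_pell h2 h hQ hPQ, pell_of_torsion h2 h⟩

end Directions

end FA.PolynomialPell

end
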