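import Fermat.Agent.PolynomialPell.Main

/-!
# Every squarefree quartic

A monic quartic becomes, after a translation, the quartic of a point on an elliptic curve; a
singular cubic would give it a square factor.
-/

set_option autoImplicit false

noncomputable section

open Polynomial WeierstrassCurve Affine

namespace FA.PolynomialPell

variable {K : Type*} [Field K]

/-- A singular cubic gives the quartic a square factor. -/
theorem exists_sq_dvd_quartic (h2 : (2 : K) ≠ 0) (h3 : (3 : K) ≠ 0) {a b s t : K}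
    (ht : t ^ 2 = s ^ 3 + a * s + b) (hΔ : 4 * a ^ 3 + 27 * b ^ 2 = 0) :
    ∃ m : K[X], 0 < m.natDegree ∧ m * m ∣ quartic a s t := by
  obtain ⟨x₀, hxa, hxb⟩ : ∃ x₀, a = -3 * x₀ ^ 2 ∧ b = 2 * x₀ ^ 3 := by
    rcases eq_or_ne a 0 with ha | ha
    · refine ⟨0, by simp [ha], ?_⟩
      subst ha
      have h : (3 : K) ^ 3 * b ^ 2 = 0 := by linear_combination hΔ
      rw [eq_zero_of_pow_eq_zero ((mul_eq_zero.1 h).resolve_left (pow_ne_zero 3 h3))]
      simp
    · refine ⟨-3 * b / (2 * a), ?_, ?_⟩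
      · field_simp
        linear_combination hΔ
      · field_simp
        linear_combination b * hΔ
  subst hxa hxb
  rcases eq_or_ne x₀ s with rfl | hne
  · refine ⟨X ^ 2 - C (3 * x₀), by rw [natDegree_X_pow_sub_C]; norm_num, ⟨1, ?_⟩⟩
    obtain rfl : t = 0 := by
      refine eq_zero_of_pow_eq_zero (n := 2) ?_
      linear_combination ht
    simp only [quartic, map_mul, map_add, map_pow, map_ofNat, map_neg, map_zero]
    ring
  · have hw := sub_ne_zero.2 hne
    set u := t / (x₀ - s)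
    have hu : u * (x₀ - s) = t := div_mul_cancel₀ _ hw
    have hu2 : u ^ 2 = s + 2 * x₀ := by
      apply mul_right_cancel₀ (pow_ne_zero 2 hw)
      linear_combination (u * (x₀ - s) + t) * hu + ht
    refine ⟨X - C u, by rw [natDegree_X_sub_C]; norm_num,
      ⟨X ^ 2 + C (2 * u) * X + C (3 * u ^ 2 - 6 * s), ?_⟩⟩
    have e1 : 8 * t = 4 * u ^ 3 - 12 * s * u := by linear_combination -8 * hu - 4 * u * hu2
    have e0 : 4 * (-3 * x₀ ^ 2) + 3 * s ^ 2 = -(3 * u ^ 4 - 6 * s * u ^ 2) := by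
      linear_combination (3 * u ^ 2 + 6 * x₀ - 3 * s) * hu2
    rw [quartic, e1, e0]
    simp only [map_mul, map_sub, map_neg, map_pow, map_ofNat]
    ring

/-- Every monic quartic without a square factor comes from a point on an elliptic curve. -/
theorem exists_quartic_eq (h2 : (2 : K) ≠ 0) (h3 : (3 : K) ≠ 0) {D : K[X]} (hm : D.Monic)
    (hd : D.natDegree = 4) (hsq : Squarefree D) :
    ∃ a b s t c : K, 4 * a ^ 3 + 27 * b ^ 2 ≠ 0 ∧ t ^ 2 = s ^ 3 + a * s + b ∧
      D.comp (X + C c) = quartic a s t := by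
  have hD : D = X ^ 4 + C (D.coeff 3) * X ^ 3 + C (D.coeff 2) * X ^ 2 + C (D.coeff 1) * X +
      C (D.coeff 0) := by
    have h4 : D.coeff 4 = 1 := hd ▸ hm.coeff_natDegree
    conv_lhs => rw [D.as_sum_range_C_mul_X_pow' (by omega : D.natDegree < 5)]
    simp only [Finset.sum_range_succ, Finset.sum_range_zero, h4, map_one, one_mul, pow_zero,
      mul_one, zero_add, pow_one]
    ring
  set d₃ := D.coeff 3
  set d₂ := D.coeff 2
  set d₁ := D.coeff 1
  set d₀ := D.coeff 0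
  have h4 : (4 : K) ≠ 0 := by
    rw [show (4 : K) = 2 ^ 2 by norm_num]; exact pow_ne_zero 2 h2
  have h6 : (6 : K) ≠ 0 := by rw [show (6 : K) = 2 * 3 by norm_num]; exact mul_ne_zero h2 h3
  have h8 : (8 : K) ≠ 0 := by rw [show (8 : K) = 2 ^ 3 by norm_num]; exact pow_ne_zero 3 h2
  set c := -d₃ / 4 with hc
  set s := -(6 * c ^ 2 + 3 * d₃ * c + d₂) / 6 with hs
  set t := -(4 * c ^ 3 + 3 * d₃ * c ^ 2 + 2 * d₂ * c + d₁) / 8 with ht
  set a := -(c ^ 4 + d₃ * c ^ 3 + d₂ * c ^ 2 + d₁ * c + d₀ + 3 * s ^ 2) / 4 with ha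
  have e3 : d₃ = -(4 * c) := by rw [hc, mul_div_cancel₀ _ h4, neg_neg]
  have e2 : 6 * s = -(6 * c ^ 2 + 3 * d₃ * c + d₂) := by rw [hs, mul_div_cancel₀ _ h6]
  have e1 : 8 * t = -(4 * c ^ 3 + 3 * d₃ * c ^ 2 + 2 * d₂ * c + d₁) := by
    rw [ht, mul_div_cancel₀ _ h8]
  have e0 : 4 * a + 3 * s ^ 2 = -(c ^ 4 + d₃ * c ^ 3 + d₂ * c ^ 2 + d₁ * c + d₀) := by
    rw [ha, mul_div_cancel₀ _ h4]; ring
  have hcomp : D.comp (X + C c) = quartic a s t := by
    rw [quartic, e2, e1, e0, hD, e3]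
    simp only [add_comp, mul_comp, C_comp, pow_comp, X_comp, neg_comp, ofNat_comp, map_neg,
      map_add, map_mul, map_pow,
      map_ofNat]
    ring
  refine ⟨a, t ^ 2 - s ^ 3 - a * s, s, t, c, fun hΔ => ?_, by ring, hcomp⟩
  obtain ⟨m, hm0, hdvd⟩ := exists_sq_dvd_quartic h2 h3
    (show t ^ 2 = s ^ 3 + a * s + (t ^ 2 - s ^ 3 - a * s) by ring) hΔ
  have hunit := hsq (m.comp (X - C c)) (by
    have := map_dvd (compRingHom (X - C c)) hdvd
    rw [map_mul, ← hcomp] at this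
    simpa [comp_assoc, add_comp, sub_add_cancel] using this)
  have := natDegree_eq_zero_of_isUnit hunit
  rw [natDegree_comp, natDegree_X_sub_C, mul_one] at this
  omega

/-- Pell solutions are invariant under translation. -/
theorem exists_pell_comp_iff (D : K[X]) (c : K) :
    (∃ P Q : K[X], Q ≠ 0 ∧ P ^ 2 - D * Q ^ 2 = 1) ↔
      ∃ P Q : K[X], Q ≠ 0 ∧ P ^ 2 - D.comp (X + C c) * Q ^ 2 = 1 := by
  have inv : ∀ p : K[X], (p.comp (X - C c)).comp (X + C c) = p ∧
      (p.comp (X + C c)).comp (X - C c) = p := fun p => by simp [comp_assoc]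
  have fwd : ∀ (c : K) (D P Q : K[X]), P ^ 2 - D * Q ^ 2 = 1 →
      P.comp (X + C c) ^ 2 - D.comp (X + C c) * Q.comp (X + C c) ^ 2 = 1 := fun c D P Q h => by
    have := congrArg (fun p => p.comp (X + C c)) h
    simpa [mul_comp, pow_comp, sub_comp] using this
  constructor <;> rintro ⟨P, Q, hQ, h⟩
  · refine ⟨_, _, fun e => hQ ?_, fwd c D P Q h⟩
    rw [← (inv Q).2, e, zero_comp]
  · refine ⟨P.comp (X - C c), Q.comp (X - C c), fun e => hQ ?_, ?_⟩
    · rw [← (inv Q).1, e, zero_comp]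
    · have := fwd (-c) _ P Q h
      rwa [map_neg, ← sub_eq_add_neg, (inv D).2] at this

end FA.PolynomialPell

end
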