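import Mathlib

/-!
# The quartic model of an elliptic curve with a marked point

For `S = (s, t)` on `y² = x³ + a x + b` the slope `u` of the line through `-S` and `(x, y)` gives a
homomorphism from the coordinate ring into `K[u, v] / (v² - D)`, `x ↦ (u² + v - s) / 2`,
`y ↦ u (x - s) - t`, with `D = u⁴ - 6 s u² - 8 t u - (4 a + 3 s²)`.
-/

set_option autoImplicit false

noncomputable section

open Polynomial WeierstrassCurve

namespace FA.PolynomialPell

variable {K : Type*} [Field K]

/-- The curve `y² = x³ + a x + b`. -/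
abbrev curve (a b : K) : Affine K := (⟨0, 0, 0, a, b⟩ : WeierstrassCurve K)

/-- The quartic attached to the point `(s, t)`. -/
def quartic (a s t : K) : K[X] :=
  X ^ 4 - C (6 * s) * X ^ 2 - C (8 * t) * X - C (4 * a + 3 * s ^ 2)

theorem quartic_monic (a s t : K) : (quartic a s t).Monic ∧ (quartic a s t).natDegree = 4 := by
  have h : quartic a s t =
      X ^ 4 + (-C (6 * s) * X ^ 2 + -C (8 * t) * X + -C (4 * a + 3 * s ^ 2)) := by
    rw [quartic]; ring
  have hd : (-C (6 * s) * X ^ 2 + -C (8 * t) * X + -C (4 * a + 3 * s ^ 2) : K[X]).degree < 4 := by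
    refine lt_of_le_of_lt (?_ : _ ≤ (2 : WithBot ℕ)) (by norm_num)
    compute_degree
  refine ⟨h ▸ monic_X_pow_add hd, natDegree_eq_of_degree_eq_some ?_⟩
  rw [h, degree_add_eq_left_of_degree_lt (by rwa [degree_X_pow])]
  exact degree_X_pow 4

/-- The equation of the double cover. -/
abbrev cover (D : K[X]) : K[X][X] := X ^ 2 - C D

/-- The ring `K[u, v] / (v² - D)`. -/
abbrev Cover (D : K[X]) : Type _ := AdjoinRoot (cover D)

variable (D : K[X])

/-- Polynomials in `u`. -/
abbrev pol : K[X] →+* Cover D := AdjoinRoot.of (cover D)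

/-- Constants. -/
abbrev cst : K →+* Cover D := (pol D).comp C

/-- The coordinate `v`. -/
abbrev vv : Cover D := AdjoinRoot.root (cover D)

/-- The coordinate `u`. -/
abbrev uu : Cover D := pol D X

theorem vv_sq : vv D ^ 2 = pol D D := by
  have h : (cover D).eval₂ (AdjoinRoot.of (cover D)) (vv D) = 0 := AdjoinRoot.eval₂_root _
  rw [eval₂_sub, eval₂_X_pow, eval₂_C, sub_eq_zero] at h
  exact h

theorem exists_rep (z : Cover D) : ∃ p q, z = pol D p + pol D q * vv D := by
  induction z using AdjoinRoot.induction_on with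
  | _ f =>
    induction f using Polynomial.induction_on with
    | C p => exact ⟨p, 0, by simp⟩
    | add f g hf hg =>
      obtain ⟨p, q, h⟩ := hf
      obtain ⟨p', q', h'⟩ := hg
      exact ⟨p + p', q + q', by rw [map_add, h, h', map_add, map_add]; ring⟩
    | monomial n p h =>
      obtain ⟨p', q', h'⟩ := h
      refine ⟨q' * D, p', ?_⟩
      rw [pow_succ, ← mul_assoc, map_mul, h', AdjoinRoot.mk_X, map_mul, ← vv_sq]
      ring

theorem rep_eq_zero {p q : K[X]} (h : pol D p + pol D q * vv D = 0) : p = 0 ∧ q = 0 := by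
  have hm : (cover D).Monic := monic_X_pow_sub_C D two_ne_zero
  have h' : AdjoinRoot.mk (cover D) (C p + C q * X) = 0 := by
    rw [map_add, map_mul, AdjoinRoot.mk_C, AdjoinRoot.mk_C, AdjoinRoot.mk_X]; exact h
  by_contra hne
  refine AdjoinRoot.mk_ne_zero_of_natDegree_lt hm (fun e => hne ?_) ?_ h'
  · have h0 := congrArg (coeff · 0) e
    have h1 := congrArg (coeff · 1) e
    simp at h0 h1
    exact ⟨h0, h1⟩
  · rw [natDegree_X_pow_sub_C]
    refine lt_of_le_of_lt (natDegree_add_le _ _) (max_lt (by simp) ?_)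
    exact lt_of_le_of_lt (natDegree_C_mul_le _ _) (by simp)

theorem pol_injective : Function.Injective (pol D) :=
  (injective_iff_map_eq_zero _).2 fun p hp => (rep_eq_zero D (q := 0) (by simpa using hp)).1

theorem eq_zero_of_pol_mul {M : K[X]} (hM : M ≠ 0) {z : Cover D} (h : pol D M * z = 0) : z = 0 := by
  obtain ⟨p, q, rfl⟩ := exists_rep D z
  rw [mul_add, ← mul_assoc, ← map_mul, ← map_mul] at h
  obtain ⟨h1, h2⟩ := rep_eq_zero D h
  rw [(mul_eq_zero.1 h1).resolve_left hM, (mul_eq_zero.1 h2).resolve_left hM]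
  simp

/-- The involution `v ↦ -v`. -/
def conj : Cover D →+* Cover D :=
  AdjoinRoot.lift (pol D) (-vv D) (by
    rw [eval₂_sub, eval₂_X_pow, eval₂_C, neg_sq, vv_sq, sub_self])

@[simp] theorem conj_pol (p : K[X]) : conj D (pol D p) = pol D p := AdjoinRoot.lift_of _

@[simp] theorem conj_vv : conj D (vv D) = -vv D := AdjoinRoot.lift_root _

section Evaluation

variable {L : Type*} [Field L] (j : K →+* L) (u₀ v₀ : L) (h : v₀ ^ 2 = D.eval₂ j u₀)

/-- Evaluation at a point of the double cover. -/
def evalAt : Cover D →+* L :=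
  AdjoinRoot.lift (eval₂RingHom j u₀) v₀ (by
    rw [eval₂_sub, eval₂_X_pow, eval₂_C, coe_eval₂RingHom, h, sub_self])

@[simp] theorem evalAt_pol (p : K[X]) : evalAt D j u₀ v₀ h (pol D p) = p.eval₂ j u₀ :=
  AdjoinRoot.lift_of _

@[simp] theorem evalAt_vv : evalAt D j u₀ v₀ h (vv D) = v₀ := AdjoinRoot.lift_root _

end Evaluation

/-- The key identity. -/
theorem key_identity {R : Type*} [CommRing R] (U V h s t a b : R) (hh : 2 * h = 1)
    (hV : V ^ 2 = U ^ 4 - 6 * s * U ^ 2 - 8 * t * U - (4 * a + 3 * s ^ 2))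
    (ht : t ^ 2 = s ^ 3 + a * s + b) :
    (U * (h * (U ^ 2 + V - s) - s) - t) ^ 2 -
      ((h * (U ^ 2 + V - s)) ^ 3 + a * (h * (U ^ 2 + V - s)) + b) = 0 := by
  have hx : 2 * (h * (U ^ 2 + V - s)) = U ^ 2 + V - s := by rw [← mul_assoc, hh, one_mul]
  generalize h * (U ^ 2 + V - s) = x at hx ⊢
  have h4 : 4 * ((U * (x - s) - t) ^ 2 - (x ^ 3 + a * x + b)) = 0 := by
    linear_combination 4 * ht - (x - s) * hV - (x - s) * (2 * x + s - U ^ 2 + V) * hx
  linear_combination h ^ 2 * h4 -
    ((U * (x - s) - t) ^ 2 - (x ^ 3 + a * x + b)) * (2 * h + 1) * hh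

variable {a b s t : K} (h2 : (2 : K) ≠ 0) (ht : t ^ 2 = s ^ 3 + a * s + b)

variable (a s t) in
/-- The image of `x`. -/
def xx : Cover (quartic a s t) :=
  cst _ (1 / 2) * (uu _ ^ 2 + vv _ - cst _ s)

variable (a s t) in
/-- The image of `x - s`. -/
def ww : Cover (quartic a s t) := xx a s t - cst _ s

variable (a s t) in
/-- The image of `y`. -/
def yy : Cover (quartic a s t) := uu _ * ww a s t - cst _ t

include h2 in
theorem two_mul_half (D : K[X]) : 2 * cst D (1 / 2) = 1 := by
  rw [← map_ofNat (cst D) 2, ← map_mul, mul_one_div_cancel h2, map_one]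

theorem pol_quartic : pol (quartic a s t) (quartic a s t) = uu _ ^ 4 - 6 * cst _ s * uu _ ^ 2 -
    8 * cst _ t * uu _ - (4 * cst _ a + 3 * cst _ s ^ 2) := by
  conv_lhs => arg 2; unfold quartic
  simp only [map_sub, map_mul, map_pow, map_add, map_ofNat, RingHom.comp_apply]

include h2 ht in
theorem yy_sq : yy a s t ^ 2 - (xx a s t ^ 3 + cst _ a * xx a s t + cst _ b) = 0 :=
  key_identity (uu _) (vv _) (cst _ (1 / 2)) (cst _ s) (cst _ t) (cst _ a) (cst _ b)
    (two_mul_half h2 _) ((vv_sq _).trans pol_quartic)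
    (by rw [← map_pow, ht, map_add, map_add, map_pow, map_mul])

/-- The homomorphism from the coordinate ring. -/
def toCover : (curve a b).CoordinateRing →+* Cover (quartic a s t) :=
  AdjoinRoot.lift (eval₂RingHom (cst _) (xx a s t)) (yy a s t) (by
    rw [Affine.polynomial]
    simp only [eval₂_add, eval₂_sub, eval₂_mul, eval₂_C, eval₂_X, coe_eval₂RingHom,
      eval₂_pow, map_zero, zero_mul, add_zero]
    linear_combination yy_sq h2 ht)

theorem toCover_apply (p q : K[X]) :
    toCover h2 ht (p • (1 : (curve a b).CoordinateRing) +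
        q • Affine.CoordinateRing.mk (curve a b) X) =
      p.eval₂ (cst _) (xx a s t) + q.eval₂ (cst _) (xx a s t) * yy a s t := by
  rw [Affine.CoordinateRing.smul, Affine.CoordinateRing.smul, mul_one]
  simp only [map_add, map_mul, toCover, AdjoinRoot.lift_mk, eval₂_C, eval₂_X, coe_eval₂RingHom]

/-- The class of `x - s`. -/
abbrev xsub (a b s : K) : (curve a b).CoordinateRing :=
  Affine.CoordinateRing.XClass (curve a b) s

theorem toCover_xsub : toCover h2 ht (xsub a b s) = ww a s t := by
  simp [toCover, xsub, Affine.CoordinateRing.XClass, ww]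

theorem toCover_ysub :
    toCover h2 ht (Affine.CoordinateRing.YClass (curve a b) (C t)) = yy a s t - cst _ t := by
  simp [toCover, Affine.CoordinateRing.YClass]

/-- Every element times a power of `x - s` comes from the coordinate ring. -/
theorem exists_toCover_eq (z : Cover (quartic a s t)) :
    ∃ (k : ℕ) (r : (curve a b).CoordinateRing), toCover h2 ht r = ww a s t ^ k * z := by
  let S : Subring (Cover (quartic a s t)) :=
    { carrier := {z | ∃ (k : ℕ) (r : (curve a b).CoordinateRing),
        toCover h2 ht r = ww a s t ^ k * z}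
      one_mem' := ⟨0, 1, by simp⟩
      zero_mem' := ⟨0, 0, by simp⟩
      mul_mem' := fun {z z'} ⟨k, r, h⟩ ⟨k', r', h'⟩ => ⟨k + k', r * r', by
        rw [map_mul, h, h', pow_add]; ring⟩
      add_mem' := fun {z z'} ⟨k, r, h⟩ ⟨k', r', h'⟩ =>
        ⟨k + k', r * xsub a b s ^ k' + r' * xsub a b s ^ k, by
          rw [map_add, map_mul, map_mul, map_pow, map_pow, toCover_xsub, h, h', pow_add]; ring⟩
      neg_mem' := fun {z} ⟨k, r, h⟩ => ⟨k, -r, by rw [map_neg, h]; ring⟩ }
  have hc : ∀ c : K, cst _ c ∈ S := fun c =>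
    ⟨0, Affine.CoordinateRing.mk (curve a b) (C (C c)), by
      simp [toCover]⟩
  have hx : xx a s t ∈ S := ⟨0, Affine.CoordinateRing.mk (curve a b) (C X), by
    simp [toCover]⟩
  have hu : uu (quartic a s t) ∈ S :=
    ⟨1, Affine.CoordinateRing.mk (curve a b) (X + C (C t)), by
      simp [toCover, yy, mul_comm]⟩
  have hv : vv (quartic a s t) ∈ S := by
    rw [show vv (quartic a s t) = xx a s t + xx a s t + cst _ s - uu _ ^ 2 by
      rw [xx]; linear_combination
        -(uu (quartic a s t) ^ 2 + vv _ - cst _ s) * two_mul_half h2 (quartic a s t)]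
    exact sub_mem (add_mem (add_mem hx hx) (hc s)) (pow_mem hu 2)
  have hp : ∀ p : K[X], pol _ p ∈ S := fun p => by
    induction p using Polynomial.induction_on with
    | C c => exact hc c
    | add f g hf hg => rw [map_add]; exact add_mem hf hg
    | monomial n c h => rw [pow_succ, ← mul_assoc, map_mul]; exact mul_mem h hu
  obtain ⟨p, q, rfl⟩ := exists_rep _ z
  exact add_mem (hp p) (mul_mem (hp q) hv)

include h2 ht in
/-- The homomorphism is injective. -/
theorem toCover_injective : Function.Injective (toCover h2 ht) := by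
  refine (injective_iff_map_eq_zero _).2 fun f hf => ?_
  obtain ⟨p, q, rfl⟩ := Affine.CoordinateRing.exists_smul_basis_eq f
  let L := AlgebraicClosure K
  let j : K →+* L := algebraMap K L
  have j2 : (2 : L) ≠ 0 := by rw [← map_ofNat j 2]; exact (map_ne_zero j).2 h2
  have key : ∀ x : L, x ≠ j s → ∃ y : L, y ^ 2 = x ^ 3 + j a * x + j b ∧
      p.eval₂ j x + q.eval₂ j x * y = 0 := by
    intro x hxs
    obtain ⟨y, hy⟩ := IsAlgClosed.exists_pow_nat_eq (x ^ 3 + j a * x + j b) two_pos
    have hw : x - j s ≠ 0 := sub_ne_zero.2 hxs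
    refine ⟨y, hy, ?_⟩
    set u₀ := (y + j t) / (x - j s) with hu₀
    have hu : u₀ * (x - j s) = y + j t := div_mul_cancel₀ _ hw
    set v₀ := 2 * x + j s - u₀ ^ 2 with hv₀
    have hv : v₀ ^ 2 = (quartic a s t).eval₂ j u₀ := by
      simp only [quartic, eval₂_sub, eval₂_mul, eval₂_C, eval₂_X_pow, eval₂_X]
      simp only [map_mul, map_add, map_pow, map_ofNat]
      apply mul_right_cancel₀ hw
      have hts : (j t) ^ 2 = (j s) ^ 3 + j a * j s + j b := by
        rw [← map_pow, ht, map_add, map_add, map_pow, map_mul]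
      rw [hv₀]
      linear_combination (-4 : L) * hy + 4 * hts -
        4 * (u₀ * (x - j s) - 2 * j t + (y + j t)) * hu
    have hev := congrArg (evalAt _ j u₀ v₀ hv) hf
    rw [toCover_apply, map_zero, map_add, map_mul, hom_eval₂, hom_eval₂] at hev
    have hc : (evalAt _ j u₀ v₀ hv).comp (cst _) = j := RingHom.ext fun c => by simp
    have hxx : evalAt _ j u₀ v₀ hv (xx a s t) = x := by
      simp only [xx, map_mul, map_sub, map_add, map_pow, evalAt_vv, RingHom.comp_apply,
        evalAt_pol, eval₂_X, eval₂_C, map_div₀, map_one, map_ofNat, hv₀]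
      rw [one_div]
      linear_combination x * inv_mul_cancel₀ j2
    have hyy : evalAt _ j u₀ v₀ hv (yy a s t) = y := by
      simp only [yy, ww, map_sub, map_mul, hxx, RingHom.comp_apply, evalAt_pol, eval₂_X, eval₂_C]
      linear_combination hu
    rwa [hc, hxx, hyy] at hev
  refine (Algebra.norm_eq_zero_iff_of_basis (Affine.CoordinateRing.basis (curve a b))).1 ?_
  rw [Affine.CoordinateRing.norm_smul_basis]
  refine map_injective j j.injective ?_
  rw [Polynomial.map_zero]
  refine eq_zero_of_infinite_isRoot _ (Set.Infinite.mono (s := {x : L | x ≠ j s}) (fun x hx => ?_)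
    (Set.finite_singleton (j s)).infinite_compl)
  obtain ⟨y, hy, hpq⟩ := key x hx
  simp only [Set.mem_ofPred_eq, IsRoot, eval_map]
  simp only [eval₂_sub, eval₂_add, eval₂_mul, eval₂_pow, eval₂_X, eval₂_C, map_zero, zero_mul,
    mul_zero, add_zero, sub_zero]
  linear_combination (p.eval₂ j x - q.eval₂ j x * y) * hpq + (q.eval₂ j x) ^ 2 * hy

/-- The norm of the image of `x - s`. -/
def wNorm (a s t : K) : K[X] := C (2 * t) * X + C (3 * s ^ 2 + a)

include h2 in
theorem ww_mul_conj : ww a s t * conj _ (ww a s t) = pol _ (wNorm a s t) := by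
  have hh := two_mul_half h2 (quartic a s t)
  have hV := (vv_sq (quartic a s t)).trans pol_quartic
  simp only [ww, xx, wNorm, map_sub, map_mul, map_add, map_pow, conj_vv, RingHom.comp_apply,
    conj_pol, map_ofNat] at hh hV ⊢
  set H := pol (quartic a s t) (C (1 / 2))
  set U := uu (quartic a s t)
  set V := vv (quartic a s t)
  set S := pol (quartic a s t) (C s)
  set A := pol (quartic a s t) (C a)
  set T := pol (quartic a s t) (C t)
  linear_combination (-(H ^ 2)) * hV +
    (2 * H * S * U ^ 2 + (2 * H + 1) * (2 * T * U + A) + (2 * H + 2) * S ^ 2) * hh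

end FA.PolynomialPell

end
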